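import Fermat.Agent.Switch.Family
import Fermat.Agent.Switch.Semistable
import Fermat.Agent.Arith.Frobenius

/-!
# The cusp of the icosahedral family at 2

For invariants with multiplicative reduction at `2` there are coordinates `(r, s)` with `r` a unit
and `s` a nonunit at a place over `2`. The members at `(a r - b ∂ₛfD, a s + b ∂ᵣfD) / 4` with
`a - b a₀ ≡ 8 (mod 16)` have the exponent of the discriminant at `2` raised by five.
-/

set_option autoImplicit false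

noncomputable section

namespace Fermat.Agent.Two.Switch

open Polynomial IsLocalRing
open Fermat.Agent.Switch

local notation "Qb" => AlgebraicClosure ℚ

theorem coe_fC4 {A : ValuationSubring Qb} (x y : A) :
    ((fC4 x y : A) : Qb) = fC4 (x : Qb) (y : Qb) := map_fC4 A.subtype x y

theorem coe_fC6 {A : ValuationSubring Qb} (x y : A) :
    ((fC6 x y : A) : Qb) = fC6 (x : Qb) (y : Qb) := map_fC6 A.subtype x y

theorem coe_fD {A : ValuationSubring Qb} (x y : A) :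
    ((fD x y : A) : Qb) = fD (x : Qb) (y : Qb) := map_fD A.subtype x y

theorem coe_intCast {A : ValuationSubring Qb} (m : ℤ) : (((m : A) : Qb)) = (m : Qb) :=
  map_intCast A.subtype m

/-- A polynomial small at `0` and not at `1` has a small root. -/
theorem exists_nonunit_root {A : ValuationSubring Qb} {Q : Qb[X]} (h0 : Q.eval 0 ∈ A.nonunits)
    (h1 : Q.eval 1 ∉ A.nonunits) : ∃ x ∈ A.nonunits, Q.eval x = 0 := by
  by_contra hcon
  push Not at hcon
  have key : ∀ m : Multiset Qb, (∀ a ∈ m, a ∉ A.nonunits) →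
      ∃ c ∈ A, (m.map fun a => 1 - a).prod = (m.map fun a => 0 - a).prod * c := by
    intro m
    induction m using Multiset.induction_on with
    | empty => exact fun _ => ⟨1, A.one_mem, by simp⟩
    | cons a m ih =>
      intro hm
      obtain ⟨c, hc, he⟩ := ih fun b hb => hm b (Multiset.mem_cons_of_mem hb)
      have ha := hm a (Multiset.mem_cons_self a m)
      have ha0 : a ≠ 0 := fun e => ha (by
        rw [e, ValuationSubring.mem_nonunits_iff, map_zero]
        exact zero_lt_one)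
      have hinv : a⁻¹ ∈ A := by
        rcases A.mem_or_inv_mem a with h | h
        · exact ((Arith.notMem_nonunits_iff h).mp ha).2
        · exact h
      refine ⟨(1 - a⁻¹) * c, mul_mem (sub_mem A.one_mem hinv) hc, ?_⟩
      rw [Multiset.map_cons, Multiset.map_cons, Multiset.prod_cons, Multiset.prod_cons, he]
      field_simp
      ring
  have hev : ∀ y : Qb, Q.eval y = Q.leadingCoeff * (Q.roots.map fun a => y - a).prod :=
    (IsAlgClosed.splits Q).eval_eq_prod_roots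
  by_cases hQ : Q = 0
  · exact h1 (by rw [hQ] at h0 ⊢; simp)
  obtain ⟨c, hc, he⟩ := key Q.roots fun a ha haA => hcon a haA ((mem_roots hQ).mp ha)
  apply h1
  rw [hev, he, ← mul_assoc, ← hev]
  exact Arith.nonunits_mul_right h0 hc

theorem residue_eq_zero_iff_nonunits {A : ValuationSubring Qb} (x : A) :
    residue A x = 0 ↔ (x : Qb) ∈ A.nonunits := by
  rw [residue_eq_zero_iff, ValuationSubring.coe_mem_nonunits_iff]

/-- Coordinates with `r` a unit and `s` a nonunit at a place over `2`. -/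
theorem exists_cusp_forms {c₄ c₆ Δ : ℤ} {A : ValuationSubring Qb} (hA : A.LiesOverPrime 2)
    (hrel : c₄ ^ 3 - c₆ ^ 2 = 1728 * Δ) (h2 : (2 : ℤ) ∣ Δ) (h4 : ¬ (2 : ℤ) ∣ c₄)
    (h6 : c₆ ≠ 0) :
    ∃ r s : A, fC4 r s = (c₄ : A) ∧ fC6 r s = (c₆ : A) ∧ fD r s ^ 5 = (Δ : A) ∧
      IsUnit r ∧ residue A s = 0 := by
  have hu4 : (c₄ : ResidueField A) ≠ 0 := fun h =>
    h4 ((intCast_residue_eq_zero_iff hA Nat.prime_two c₄).mp h)
  have hΔ0 : (Δ : ResidueField A) = 0 :=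
    (intCast_residue_eq_zero_iff hA Nat.prime_two Δ).mpr h2
  set Q : Qb[X] := C ((c₄ : Qb) ^ 3) * fD 1 X ^ 5 - C (Δ : Qb) * fC4 1 X ^ 3 with hQ
  have hQe : ∀ y : A, Q.eval (y : Qb) =
      (((c₄ : A) ^ 3 * fD 1 y ^ 5 - (Δ : A) * fC4 1 y ^ 3 : A) : Qb) := by
    intro y
    simp only [hQ, eval_sub, eval_mul, eval_pow, eval_C, eval_fD, eval_fC4, eval_one, eval_X]
    push_cast [coe_fD, coe_fC4, coe_intCast]
    rfl
  obtain ⟨x, hx, hroot⟩ := exists_nonunit_root (A := A) (Q := Q)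
    (by
      rw [show (0 : Qb) = ((0 : A) : Qb) from rfl, hQe, ← residue_eq_zero_iff_nonunits]
      simp [fD, hΔ0])
    (by
      rw [show (1 : Qb) = ((1 : A) : Qb) from rfl, hQe, ← residue_eq_zero_iff_nonunits]
      simp only [map_sub, map_mul, map_pow, map_fD, map_fC4, map_one, map_intCast, hΔ0, zero_mul,
        sub_zero, mul_eq_zero, pow_eq_zero_iff (by norm_num : (3 : ℕ) ≠ 0),
        pow_eq_zero_iff (by norm_num : (5 : ℕ) ≠ 0), hu4, false_or]
      intro h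
      have h11 : ((11 : ℤ) : ResidueField A) = 0 := by
        simp only [fD] at h
        push_cast
        linear_combination -h
      exact absurd ((intCast_residue_eq_zero_iff hA Nat.prime_two 11).mp h11) (by norm_num))
  set xA : A := ⟨x, Arith.mem_of_mem_nonunits hx⟩ with hxA
  have hx0 : residue A xA = 0 := (residue_eq_zero_iff_nonunits _).mpr hx
  have hC4 : residue A (fC4 1 xA) = 1 := by simp [hx0, fC4]
  have hc4x : fC4 (1 : Qb) x ≠ 0 := by
    intro h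
    have : fC4 1 xA = 0 := Subtype.val_injective (by rw [coe_fC4]; exact h)
    rw [this, map_zero] at hC4
    exact zero_ne_one hC4
  simp only [hQ, eval_sub, eval_mul, eval_pow, eval_C, eval_fD, eval_fC4, eval_one, eval_X]
    at hroot
  have hrel' : (c₄ : Qb) ^ 3 - (c₆ : Qb) ^ 2 = 1728 * (Δ : Qb) := by exact_mod_cast hrel
  have hf := fC4_cube_sub_fC6_sq (1 : Qb) x
  have hkey : (c₆ : Qb) ^ 2 * fC4 1 x ^ 3 = (c₄ : Qb) ^ 3 * fC6 1 x ^ 2 := by
    linear_combination 1728 * hroot + (c₄ : Qb) ^ 3 * hf - fC4 1 x ^ 3 * hrel'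
  have hc6 : fC6 (1 : Qb) x ≠ 0 := by
    intro h
    rw [h] at hkey
    simp [h6, hc4x] at hkey
  have hc4' : (c₄ : Qb) ≠ 0 := Int.cast_ne_zero.mpr fun h => h4 (h ▸ dvd_zero _)
  set e := (c₆ : Qb) * fC4 1 x / (fC6 1 x * c₄) with he
  have e2 : e ^ 2 * fC4 1 x = c₄ := by rw [he]; field_simp; linear_combination hkey
  have e3 : e ^ 3 * fC6 1 x = c₆ := by rw [he]; field_simp; linear_combination hkey
  obtain ⟨c, hc⟩ := IsAlgClosed.exists_pow_nat_eq e (show 0 < 10 by norm_num)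
  have k4 : fC4 c (c * x) = (c₄ : Qb) := by
    rw [← e2, ← hc, ← pow_mul, ← fC4_smul, mul_one]
  have k6 : fC6 c (c * x) = (c₆ : Qb) := by
    rw [← e3, ← hc, ← pow_mul, ← fC6_smul, mul_one]
  have hcpow : c ^ 20 * fC4 1 x = c₄ := by rw [← e2, ← hc, ← pow_mul]
  have hu : IsUnit (fC4 1 xA) := (residue_ne_zero_iff_isUnit _).mp (by rw [hC4]; exact one_ne_zero)
  have hu' : IsUnit ((c₄ : ℤ) : A) :=
    (residue_ne_zero_iff_isUnit _).mp (by rw [map_intCast]; exact hu4)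
  obtain ⟨w, hw⟩ := hu
  obtain ⟨w', hw'⟩ := hu'
  set d : A := ((w' * w⁻¹ : Aˣ) : A) with hd
  have hd20 : c ^ 20 = (d : Qb) := by
    have hdw : d * fC4 1 xA = (c₄ : A) := by
      rw [hd, ← hw, ← Units.val_mul, inv_mul_cancel_right, hw']
    have hdw' : A.subtype d * fC4 (A.subtype 1) (A.subtype xA) = A.subtype (c₄ : A) := by
      rw [← map_fC4, ← map_mul, hdw]
    rw [map_one, map_intCast] at hdw'
    exact mul_right_cancel₀ hc4x (hcpow.trans hdw'.symm)
  have hcA : c ∈ A := by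
    rcases A.mem_or_inv_mem c with h | h
    · exact h
    · have : c = (c⁻¹) ^ 19 * (d : Qb) := by
        rw [← hd20]
        rcases eq_or_ne c 0 with rfl | hc0
        · simp
        · field_simp
      rw [this]
      exact mul_mem (pow_mem h 19) d.2
  set r : A := ⟨c, hcA⟩ with hr
  have hru : IsUnit r := by
    have : r ^ 20 = d := Subtype.val_injective hd20
    exact (isUnit_pow_iff (by norm_num : (20 : ℕ) ≠ 0)).mp (this ▸ Units.isUnit _)
  refine ⟨r, r * xA, Subtype.val_injective ?_, Subtype.val_injective ?_, Subtype.val_injective ?_,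
    hru, by rw [map_mul, hx0, mul_zero]⟩
  · rw [coe_fC4, coe_intCast]; exact k4
  · rw [coe_fC6, coe_intCast]; exact k6
  · push_cast [coe_fD, coe_intCast]
    show fD c (c * x) ^ 5 = (Δ : Qb)
    apply mul_left_cancel₀ (show (1728 : Qb) ≠ 0 by norm_num)
    rw [← fC4_cube_sub_fC6_sq, k4, k6, hrel']

variable {R : Type*} [CommRing R]

/-- `-∂ᵣfD / s`. -/
def aStar (r s : R) : R := 11 * r ^ 10 + 66 * r ^ 5 * s ^ 5 - s ^ 10

/-- `fD / (-r s)`. -/
def cuspPhi (r s : R) : R := r ^ 10 + 11 * r ^ 5 * s ^ 5 - s ^ 10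

theorem fD_eq_cuspPhi (r s : R) : fD r s = -(r * s * cuspPhi r s) := by
  simp only [fD, cuspPhi]; ring

/-- The integral congruence for `aStar`. -/
theorem aStar_mul_fC4_sub (r s w : R) (hw : s ^ 5 = 2 * w) :
    (16 : R) ∣ aStar r s * fC4 r s - 5 * fC6 r s := by
  have p10 : s ^ 10 = (s ^ 5) ^ 2 := by ring
  have p15 : s ^ 15 = (s ^ 5) ^ 3 := by ring
  have p20 : s ^ 20 = (s ^ 5) ^ 4 := by ring
  have p25 : s ^ 25 = (s ^ 5) ^ 5 := by ring
  have p30 : s ^ 30 = (s ^ 5) ^ 6 := by ring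
  refine ⟨r ^ 30 + 21 * r ^ 25 * w - 14910 * r ^ 20 * w ^ 2 + 17670 * r ^ 15 * w ^ 3
    - 35460 * r ^ 10 * w ^ 4 - 5544 * r ^ 5 * w ^ 5 + 16 * w ^ 6, ?_⟩
  simp only [aStar, fC4, fC6, p10, p15, p20, p25, p30, hw]
  ring

theorem four_dvd_fC6_add (r s w : R) (hw : s ^ 5 = 2 * w) :
    (4 : R) ∣ fC6 r s + r ^ 30 := by
  have p10 : s ^ 10 = (s ^ 5) ^ 2 := by ring
  have p20 : s ^ 20 = (s ^ 5) ^ 4 := by ring
  have p25 : s ^ 25 = (s ^ 5) ^ 5 := by ring
  have p30 : s ^ 30 = (s ^ 5) ^ 6 := by ring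
  refine ⟨-261 * r ^ 25 * w + 10005 * r ^ 20 * w ^ 2 + 40020 * r ^ 10 * w ^ 4
    + 4176 * r ^ 5 * w ^ 5 - 16 * w ^ 6, ?_⟩
  simp only [fC6, p10, p20, p25, p30, hw]
  ring

/-- The member near the cusp, divided by four. -/
theorem exists_cusp_member {c₄ c₆ Δ : ℤ} {A : ValuationSubring Qb} (hA : A.LiesOverPrime 2)
    (h2 : (2 : ℤ) ∣ Δ) (h4 : ¬ (2 : ℤ) ∣ c₄) (h6 : c₆ % 4 = 3) {r s : A}
    (k4 : fC4 r s = (c₄ : A)) (k6 : fC6 r s = (c₆ : A)) (kD : fD r s ^ 5 = (Δ : A))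
    (hr : IsUnit r) (hs : residue A s = 0) :
    ∃ a₀ : ℤ, ∀ a b : ℤ, ¬ (2 : ℤ) ∣ b → (16 : ℤ) ∣ a - b * a₀ - 8 →
      ∃ r' s' : A, 4 * r' = a * r - b * fDs r s ∧ 4 * s' = a * s + b * fDr r s ∧
        IsUnit (fC4 r' s') ∧ (4 : A) ∣ fC6 r' s' - (c₆ : A) ∧
        ∃ ν : A, IsUnit ν ∧ fD r' s' ^ 5 = 32 * (Δ : A) * ν := by
  have hΦ : residue A (cuspPhi r s) = residue A r ^ 10 := by simp [cuspPhi, hs]
  have hr0 : residue A r ≠ 0 := (residue_ne_zero_iff_isUnit r).mpr hr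
  have h20 : (2 : ResidueField A) = 0 := by
    have := (intCast_residue_eq_zero_iff hA Nat.prime_two 2).mpr (by norm_num)
    exact_mod_cast this
  have hΦu : IsUnit (cuspPhi r s) :=
    (residue_ne_zero_iff_isUnit _).mp (by rw [hΦ]; exact pow_ne_zero _ hr0)
  obtain ⟨k, hk⟩ := h2
  obtain ⟨uu, huu⟩ := (hr.pow 5).mul (hΦu.pow 5)
  set w : A := -((k : A) * (uu⁻¹ : Aˣ)) with hwdef
  have hw : s ^ 5 = 2 * w := by
    have h : (uu : A) * s ^ 5 = -(2 * (k : A)) := by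
      rw [fD_eq_cuspPhi, hk, Int.cast_mul, Int.cast_ofNat] at kD
      rw [huu]
      linear_combination -kD
    apply (Units.isUnit uu).mul_left_cancel
    rw [h, hwdef]
    linear_combination (2 * (k : A)) * uu.mul_inv
  obtain ⟨ci, m, hcm⟩ : IsCoprime c₄ (16 : ℤ) := by
    rw [show (16 : ℤ) = 2 ^ 4 by norm_num]
    exact ((Int.prime_two.coprime_iff_not_dvd).mpr h4).symm.pow_right
  refine ⟨5 * c₆ * ci, fun a b hb hab => ?_⟩
  obtain ⟨E, hE⟩ := aStar_mul_fC4_sub r s w hw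
  rw [k4, k6] at hE
  have hcm' : (ci : A) * (c₄ : A) + (m : A) * 16 = 1 := by
    have := congrArg (Int.cast (R := A)) hcm
    push_cast at this
    exact this
  obtain ⟨d, hd⟩ : (16 : A) ∣ aStar r s - ((5 * c₆ * ci : ℤ) : A) :=
    ⟨(ci : A) * E + (m : A) * aStar r s, by
      push_cast; linear_combination (ci : A) * hE - aStar r s * hcm'⟩
  obtain ⟨g, hg⟩ := hab
  have hg' : (a : A) - (b : A) * ((5 * c₆ * ci : ℤ) : A) - 8 = 16 * (g : A) := by
    have := congrArg (Int.cast (R := A)) hg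
    push_cast at this ⊢
    exact this
  set ε : A := 1 + 2 * (g - b * d) with hε
  have hδ : (a : A) - (b : A) * aStar r s = 8 * ε := by
    rw [hε]; linear_combination hg' - (b : A) * hd
  have hb0 : (b : ResidueField A) ≠ 0 := fun h =>
    hb ((intCast_residue_eq_zero_iff hA Nat.prime_two b).mp h)
  set κ : A := 3 * b * cuspPhi r s + 2 * ε with hκ
  have h30 : (3 : ResidueField A) ≠ 0 := by
    intro h
    exact one_ne_zero (α := ResidueField A) (by linear_combination h - h20)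
  have hεu : IsUnit ε := (residue_ne_zero_iff_isUnit _).mp (by simp [hε, h20, map_ofNat])
  have hκr : residue A κ = 3 * (b : ResidueField A) * residue A r ^ 10 := by
    simp [hκ, hΦ, h20, map_ofNat]
  have hκu : IsUnit κ := (residue_ne_zero_iff_isUnit _).mp (by
    rw [hκr]; exact mul_ne_zero (mul_ne_zero h30 hb0) (pow_ne_zero _ hr0))
  set r' : A := r * κ with hr'
  set s' : A := 2 * ε * s with hs'
  have hs'0 : residue A s' = 0 := by simp [hs', hs]
  have hr'0 : residue A r' ≠ 0 := (residue_ne_zero_iff_isUnit _).mpr (hr.mul hκu)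
  have hΦ'u : IsUnit (cuspPhi r' s') := (residue_ne_zero_iff_isUnit _).mp (by
    simpa [cuspPhi, hs'0] using pow_ne_zero 10 hr'0)
  clear_value r' s' κ ε w
  refine ⟨r', s', ?_, ?_, ?_, ?_, ?_⟩
  · rw [hr', hκ]
    linear_combination (norm := (simp only [fDs, aStar, cuspPhi]; ring)) -r * hδ
  · rw [hs']
    linear_combination (norm := (simp only [fDr, aStar]; ring)) -s * hδ
  · refine (residue_ne_zero_iff_isUnit _).mp ?_
    simpa [map_fC4, fC4, hs'0] using pow_ne_zero 20 hr'0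
  · obtain ⟨j, hj⟩ : ∃ j, b = 2 * j + 1 := ⟨b / 2, by omega⟩
    have e1 : (4 : A) ∣ fC6 r' s' + r' ^ 30 :=
      four_dvd_fC6_add r' s' (32 * ε ^ 5 * w) (by rw [hs', mul_pow, hw]; ring)
    have hsq : (4 : A) ∣ r' ^ 2 - r ^ 22 := by
      obtain ⟨P, hP⟩ : ∃ P : A, P = 11 * r ^ 5 * w - 2 * w ^ 2 := ⟨_, rfl⟩
      have hΦP : cuspPhi r s = r ^ 10 + 2 * P := by
        rw [cuspPhi, show s ^ 10 = (s ^ 5) ^ 2 by ring, hw, hP]; ring
      have hb' : (3 : A) * (b : A) = 1 + 2 * (3 * (j : A) + 1) := by rw [hj]; push_cast; ring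
      obtain ⟨Q, hQ⟩ : ∃ Q : A,
          Q = (3 * (j : A) + 1) * r ^ 10 + (1 + 2 * (3 * (j : A) + 1)) * P + ε := ⟨_, rfl⟩
      have hQ' : κ = r ^ 10 + 2 * Q := by rw [hκ, hΦP, hb', hQ]; ring
      exact ⟨r ^ 2 * (r ^ 10 * Q + Q ^ 2), by rw [hr', hQ']; ring⟩
    have h30' : (4 : A) ∣ r' ^ 30 - (r ^ 30) ^ 11 := by
      rw [show r' ^ 30 = (r' ^ 2) ^ 15 by ring, show (r ^ 30) ^ 11 = (r ^ 22) ^ 15 by ring]
      exact hsq.trans (sub_dvd_pow_sub_pow _ _ 15)
    have h6' : (4 : A) ∣ r ^ 30 - -(c₆ : A) := by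
      rw [sub_neg_eq_add, add_comm, ← k6]
      exact four_dvd_fC6_add r s w hw
    have h66 : (4 : A) ∣ (r ^ 30) ^ 11 - (-(c₆ : A)) ^ 11 := h6'.trans (sub_dvd_pow_sub_pow _ _ 11)
    obtain ⟨i, hi⟩ : (4 : ℤ) ∣ c₆ ^ 11 - c₆ := by
      have h : c₆ ≡ -1 [ZMOD 4] := by rw [Int.ModEq]; omega
      exact Int.ModEq.dvd (((h.pow 11).trans (by norm_num [Int.ModEq])).trans h.symm).symm
    have h66' : (4 : A) ∣ (-(c₆ : A)) ^ 11 + (c₆ : A) :=
      ⟨-(i : A), by
        have := congrArg (Int.cast (R := A)) hi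
        push_cast at this
        linear_combination -this⟩
    convert dvd_sub e1 ((h30'.add h66).add h66') using 1
    ring
  · obtain ⟨v, hv⟩ := hΦu.pow 5
    refine ⟨(κ * ε * cuspPhi r' s') ^ 5 * (v⁻¹ : Aˣ), (((hκu.mul hεu).mul hΦ'u).pow 5).mul
      (Units.isUnit _), ?_⟩
    rw [← kD, fD_eq_cuspPhi r s, fD_eq_cuspPhi r' s', hr', hs']
    linear_combination 32 * r ^ 5 * s ^ 5 * (κ * ε * cuspPhi (r * κ) (2 * ε * s)) ^ 5
      * ((congrArg (fun z : A => z * ((v⁻¹ : Aˣ) : A)) hv.symm).trans (v.mul_inv))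

end Fermat.Agent.Two.Switch
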