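import Fermat.Agent.Two.Switch.Cusp

/-!
# Congruences of the forms at points near the base point

For an integer `b` divisible by a high power of `N`, with `N r` and `N s` integral at a place,
the forms at `(a r - b ∂ₛfD, a s + b ∂ᵣfD)` are congruent to those at `(a r, a s)`.
-/

set_option autoImplicit false

noncomputable section

namespace Fermat.Agent.Two.Switch

open Fermat.Agent.Switch

local notation "Qb" => AlgebraicClosure ℚ

/-- An element in every Galois orbit of size one is rational. -/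
theorem exists_rat_of_fixed {z : Qb} (h : ∀ σ : Qb ≃ₐ[ℚ] Qb, σ z = z) : ∃ q : ℚ, (q : Qb) = z := by
  have : IsGalois ℚ Qb := Arith.qBar_isGalois
  obtain ⟨q, hq⟩ := IntermediateField.mem_bot.mp ((InfiniteGalois.mem_bot_iff_fixed z).mpr h)
  exact ⟨q, by simpa using hq⟩

/-- An integer multiple of a prime power in a place over the prime is one in `ℤ`. -/
theorem int_dvd_of_mem {p : ℕ} {B : ValuationSubring Qb} (hB : B.LiesOverPrime p) (hp : p.Prime)
    {k : ℕ} {z : ℤ} {β : Qb} (hβ : β ∈ B) (h : (z : Qb) = (p : Qb) ^ k * β) :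
    (p : ℤ) ^ k ∣ z := by
  have hpk : (p : ℚ) ^ k ≠ 0 := pow_ne_zero _ (Nat.cast_ne_zero.mpr hp.ne_zero)
  set q : ℚ := (z : ℚ) / (p : ℚ) ^ k with hq
  have hqB : (q : Qb) ∈ B := by
    have : (q : Qb) = β := by
      rw [hq, Rat.cast_div, Rat.cast_intCast, Rat.cast_pow, Rat.cast_natCast, h]
      have : (p : Qb) ^ k ≠ 0 := pow_ne_zero _ (Nat.cast_ne_zero.mpr hp.ne_zero)
      field_simp
    rw [this]; exact hβ
  have hden := (Arith.ratCast_mem_iff hB hp q).mp hqB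
  have hd : q.den ∣ p ^ k := by
    have e : q = Rat.divInt z ((p : ℤ) ^ k) := by
      rw [Rat.divInt_eq_div, hq]; push_cast; ring
    have := Rat.den_dvd z ((p : ℤ) ^ k)
    rw [← e] at this
    exact_mod_cast this
  obtain ⟨i, -, hi⟩ := (Nat.dvd_prime_pow hp).mp hd
  have hi0 : i = 0 := by
    by_contra h0
    exact hden (hi ▸ dvd_pow_self p h0)
  have hq1 : q.den = 1 := by rw [hi, hi0, pow_zero]
  refine ⟨q.num, ?_⟩
  have : (q.num : ℚ) = q := Rat.coe_int_num_of_den_eq_one hq1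
  have e2 : (z : ℚ) = (p : ℚ) ^ k * q.num := by rw [this, hq]; field_simp
  exact_mod_cast e2

/-- A rational number in a place over each prime is an integer. -/
theorem exists_int_of_forall_mem {q : ℚ}
    (h : ∀ p : ℕ, p.Prime → ∃ B : ValuationSubring Qb, B.LiesOverPrime p ∧ (q : Qb) ∈ B) :
    ∃ z : ℤ, (z : ℚ) = q := by
  refine ⟨q.num, Rat.coe_int_num_of_den_eq_one ?_⟩
  by_contra hne
  obtain ⟨p, hp, hpd⟩ := Nat.exists_prime_and_dvd hne
  obtain ⟨B, hB, hqB⟩ := h p hp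
  exact (Arith.ratCast_mem_iff hB hp q).mp hqB hpd

/-- The congruence for a homogeneous form of degree `n ≤ 60`. -/
theorem scaled_congr {B : ValuationSubring Qb} {f : Qb → Qb → Qb} {fB : B → B → B} {n : ℕ}
    (hn : 11 * n ≤ 660) (hcoe : ∀ x y : B, ((fB x y : B) : Qb) = f x y)
    (hsmul : ∀ l x y : Qb, f (l * x) (l * y) = l ^ n * f x y)
    (hcongr : ∀ b x y e g : B, b ∣ fB (x + b * e) (y + b * g) - fB x y)
    {N m : ℤ} (hN : N ≠ 0) {r s : Qb} (hr : (N : Qb) * r ∈ B) (hs : (N : Qb) * s ∈ B)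
    (a b : ℤ) (hb : b = N ^ 661 * m) :
    ∃ β ∈ B, f ((a : Qb) * r - (b : Qb) * fDs r s) ((a : Qb) * s + (b : Qb) * fDr r s)
      - (a : Qb) ^ n * f r s = (N : Qb) * (m : Qb) * β := by
  have hN' : (N : Qb) ≠ 0 := Int.cast_ne_zero.mpr hN
  set R : B := ⟨(N : Qb) * r, hr⟩
  set S : B := ⟨(N : Qb) * s, hs⟩
  obtain ⟨β, hβ⟩ := hcongr (b : B) ((a : B) * (N : B) ^ 10 * R) ((a : B) * (N : B) ^ 10 * S)
    (-fDs R S) (fDr R S)
  have h := congrArg (fun x : B => (x : Qb)) hβ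
  have eS : ((fDs R S : B) : Qb) = (N : Qb) ^ 11 * fDs r s := by
    rw [← fDs_smul]; exact map_fDs B.subtype R S
  have eR : ((fDr R S : B) : Qb) = (N : Qb) ^ 11 * fDr r s := by
    rw [← fDr_smul]; exact map_fDr B.subtype R S
  push_cast [hcoe, coe_intCast, eS, eR] at h
  have e1 : (a : Qb) * (N : Qb) ^ 10 * ((N : Qb) * r) + (b : Qb) * -((N : Qb) ^ 11 * fDs r s) =
      (N : Qb) ^ 11 * ((a : Qb) * r - (b : Qb) * fDs r s) := by ring
  have e2 : (a : Qb) * (N : Qb) ^ 10 * ((N : Qb) * s) + (b : Qb) * ((N : Qb) ^ 11 * fDr r s) =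
      (N : Qb) ^ 11 * ((a : Qb) * s + (b : Qb) * fDr r s) := by ring
  have e3 : (a : Qb) * (N : Qb) ^ 10 * ((N : Qb) * r) = (a : Qb) * (N : Qb) ^ 11 * r := by ring
  have e4 : (a : Qb) * (N : Qb) ^ 10 * ((N : Qb) * s) = (a : Qb) * (N : Qb) ^ 11 * s := by ring
  change f ((a : Qb) * (N : Qb) ^ 10 * ((N : Qb) * r) + (b : Qb) * -((N : Qb) ^ 11 * fDs r s))
      ((a : Qb) * (N : Qb) ^ 10 * ((N : Qb) * s) + (b : Qb) * ((N : Qb) ^ 11 * fDr r s))
    - f ((a : Qb) * (N : Qb) ^ 10 * ((N : Qb) * r)) ((a : Qb) * (N : Qb) ^ 10 * ((N : Qb) * s))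
      = (b : Qb) * (β : Qb) at h
  rw [e1, e2, e3, e4, hsmul, hsmul, mul_pow, ← pow_mul] at h
  refine ⟨(N : Qb) ^ (660 - 11 * n) * (β : Qb),
    mul_mem (pow_mem (intCast_mem B N) _) β.2, ?_⟩
  apply mul_left_cancel₀ (pow_ne_zero (11 * n) hN')
  have e5 : (N : Qb) ^ (11 * n) * (N : Qb) ^ (660 - 11 * n) = (N : Qb) ^ 660 := by
    rw [← pow_add]; congr 1; omega
  have hb' : (b : Qb) = (N : Qb) ^ 661 * (m : Qb) := by rw [hb]; push_cast; ring
  rw [hb'] at h ⊢
  linear_combination h - (N : Qb) * (m : Qb) * (β : Qb) * e5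

variable {R : Type*} [CommRing R]

theorem dvd_fC4_add_sub (b x y e g : R) : b ∣ fC4 (x + b * e) (y + b * g) - fC4 x y := by
  rw [← Ideal.mem_span_singleton, ← Ideal.Quotient.eq_zero_iff_mem, map_sub, map_fC4, map_fC4]
  simp [Ideal.Quotient.eq_zero_iff_mem.mpr (Ideal.mem_span_singleton_self b)]

theorem dvd_fC6_add_sub (b x y e g : R) : b ∣ fC6 (x + b * e) (y + b * g) - fC6 x y := by
  rw [← Ideal.mem_span_singleton, ← Ideal.Quotient.eq_zero_iff_mem, map_sub, map_fC6, map_fC6]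
  simp [Ideal.Quotient.eq_zero_iff_mem.mpr (Ideal.mem_span_singleton_self b)]

theorem dvd_fD_pow_add_sub (b x y e g : R) :
    b ∣ fD (x + b * e) (y + b * g) ^ 5 - fD x y ^ 5 := by
  rw [← Ideal.mem_span_singleton, ← Ideal.Quotient.eq_zero_iff_mem, map_sub, map_pow, map_pow,
    map_fD, map_fD]
  simp [Ideal.Quotient.eq_zero_iff_mem.mpr (Ideal.mem_span_singleton_self b)]

theorem fD_pow_smul (l x y : R) : fD (l * x) (l * y) ^ 5 = l ^ 60 * fD x y ^ 5 := by
  rw [fD_smul, mul_pow, ← pow_mul]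

end Fermat.Agent.Two.Switch
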