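import Fermat.Agent.Two.Switch.Trace
import Fermat.Agent.Two.Switch.Cusp
import Fermat.Agent.Two.Switch.Odd
import Fermat.Agent.Two.Family.Member

/-!
# Raising the exponent of the discriminant at 2 by five

A semistable curve, multiplicative at `2`, has a semistable curve with the same mod 5 traces whose
discriminant has exponent at `2` larger by five.
-/

set_option autoImplicit false

noncomputable section

namespace Fermat.Agent.Two.Switch

open WeierstrassCurve IsLocalRing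
open Fermat.Agent.Switch Fermat.Agent.Two.Family

local notation "Qb" => AlgebraicClosure ℚ

/-- Multiplicative invariants at `2`. -/
theorem hasModelAt_two_of_unit {c₄ c₆ D : ℤ} (hrel : c₄ ^ 3 - c₆ ^ 2 = 1728 * D)
    (h4 : ¬ (2 : ℤ) ∣ c₄) (h6 : c₆ % 4 = 3) : HasModelAt 16 64 c₄ c₆ := by
  obtain ⟨k, m, hk⟩ : IsCoprime c₄ (64 : ℤ) := by
    rw [show (64 : ℤ) = 2 ^ 6 by norm_num]
    exact ((Int.prime_two.coprime_iff_not_dvd).mpr h4).symm.pow_right
  have hk' : (c₄ : ZMod 64) * k = 1 := by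
    have := congrArg (Int.cast (R := ZMod 64)) hk
    push_cast at this
    rw [show (64 : ZMod 64) = 0 from rfl, mul_zero, add_zero] at this
    rwa [mul_comm]
  have hr : (c₄ : ZMod 64) ^ 3 = (c₆ : ZMod 64) ^ 2 := by
    have := congrArg (Int.cast (R := ZMod 64)) hrel
    push_cast at this
    rw [show (1728 : ZMod 64) = 0 from rfl, zero_mul] at this
    exact sub_eq_zero.mp this
  have hm4 : -c₆ * k % 4 = 1 := by
    have h1 : (c₄ : ZMod 4) ^ 3 = (c₆ : ZMod 4) ^ 2 := by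
      have := congrArg (Int.cast (R := ZMod 4)) hrel
      push_cast at this
      rw [show (1728 : ZMod 4) = 0 from rfl, zero_mul] at this
      exact sub_eq_zero.mp this
    have h2 : (c₄ : ZMod 4) * k = 1 := by
      have := congrArg (Int.cast (R := ZMod 4)) hk
      push_cast at this
      rw [show (64 : ZMod 4) = 0 from rfl, mul_zero, add_zero] at this
      rwa [mul_comm]
    have h3 : (c₆ : ZMod 4) = 3 := by
      have : c₆ ≡ 3 [ZMOD ((4 : ℕ) : ℤ)] := by rw [Int.ModEq]; omega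
      exact_mod_cast (ZMod.intCast_eq_intCast_iff c₆ 3 4).mpr this
    have h5 : ((-c₆ * k : ℤ) : ZMod 4) = ((1 : ℤ) : ZMod 4) := by
      push_cast
      rw [h3] at h1 ⊢
      revert h1 h2
      generalize (c₄ : ZMod 4) = u
      generalize (k : ZMod 4) = v
      revert u v
      decide
    have := (ZMod.intCast_eq_intCast_iff _ _ 4).mp h5
    rw [Int.ModEq] at this
    omega
  obtain ⟨a₂, ha₂⟩ : (4 : ℤ) ∣ -c₆ * k - 1 := by omega
  have hb : ((1 : ℤ) ^ 2 + 4 * a₂ : ℤ) = -c₆ * k := by linarith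
  refine ⟨1, a₂, 0, (show (16 : ℤ) ∣ 64 by norm_num).trans
    ((ZMod.intCast_zmod_eq_zero_iff_dvd _ 64).mp ?_),
    (ZMod.intCast_zmod_eq_zero_iff_dvd _ 64).mp ?_⟩
  · simp only [modelX, hb]
    push_cast
    linear_combination (c₄ : ZMod 64) * ((c₄ : ZMod 64) * k + 1) * hk'
      - (k : ZMod 64) ^ 2 * hr
  · simp only [modelY, hb]
    push_cast
    linear_combination (-(c₆ : ZMod 64) * (((c₄ : ZMod 64) * k) ^ 2 + (c₄ : ZMod 64) * k + 1)
      + 3 * c₆) * hk' + (c₆ : ZMod 64) * (k : ZMod 64) ^ 3 * hr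

/-- Integers differing by a unit at `2` have the same exponent there. -/
theorem padicValInt_two_eq {A : ValuationSubring Qb} (hA : A.LiesOverPrime 2) {z w : ℤ}
    (hz : z ≠ 0) (hw : w ≠ 0) {ν : A} (hν : IsUnit ν) (h : (z : Qb) = (w : Qb) * (ν : Qb)) :
    padicValInt 2 z = padicValInt 2 w := by
  obtain ⟨u, rfl⟩ := hν
  have h' : (w : Qb) = (z : Qb) * (((u⁻¹ : Aˣ) : A) : Qb) := by
    rw [h, mul_assoc]
    have : ((u : A) * ((u⁻¹ : Aˣ) : A) : A) = 1 := u.mul_inv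
    have e := congrArg (fun x : A => (x : Qb)) this
    push_cast at e
    rw [e, mul_one]
  have key : ∀ {z w : ℤ} {β : A}, z ≠ 0 → (z : Qb) = (w : Qb) * (β : Qb) →
      padicValInt 2 w ≤ padicValInt 2 z := by
    intro z w β hz h
    obtain ⟨w', hw'⟩ := padicValInt_dvd (p := 2) w
    have hd : ((2 : ℕ) : ℤ) ^ padicValInt 2 w ∣ z :=
      int_dvd_of_mem hA Nat.prime_two (β := (w' : Qb) * (β : Qb))
        (mul_mem (intCast_mem A w') β.2) (by
          rw [← mul_assoc, h]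
          congr 1
          exact_mod_cast congrArg (Int.cast (R := Qb)) hw')
    exact ((padicValInt_dvd_iff _ _).mp hd).resolve_left hz
  exact le_antisymm (key hw h') (key hz h)

/-- **One step.** -/
theorem exists_step (W : WeierstrassCurve ℤ) (hΔ : W.Δ ≠ 0) (hW : W.IsSemistableModel)
    (h2 : (2 : ℤ) ∣ W.Δ) :
    ∃ W' : WeierstrassCurve ℤ, W'.Δ ≠ 0 ∧ W'.IsSemistableModel ∧ (2 : ℤ) ∣ W'.Δ ∧
      padicValInt 2 W'.Δ = padicValInt 2 W.Δ + 5 ∧ SameTrace W W' := by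
  classical
  have hrel : W.c₄ ^ 3 - W.c₆ ^ 2 = 1728 * W.Δ := W.c_relation.symm
  have h4 : ¬ (2 : ℤ) ∣ W.c₄ := hW 2 Nat.prime_two h2
  have h6m : W.c₆ % 4 = 3 := c₆_emod_four h4
  have hc6 : W.c₆ ≠ 0 := c₆_ne_zero_of_semistable hΔ hW
  have hc4 : W.c₄ ≠ 0 := c₄_ne_zero_of_semistable hΔ hW
  obtain ⟨A, hA⟩ := Arith.exists_liesOverPrime Nat.prime_two
  obtain ⟨r, s, k4, k6, kD, hru, hs0⟩ := exists_cusp_forms hA hrel h2 h4 hc6
  obtain ⟨a₀, ha₀⟩ := exists_cusp_member hA h2 h4 h6m k4 k6 kD hru hs0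
  obtain ⟨F⟩ := exists_familyData hΔ hW
  have hFD5 : fD F.r₀ F.s₀ ^ 5 = (W.Δ : Qb) := by
    apply mul_left_cancel₀ (show (1728 : Qb) ≠ 0 by norm_num)
    rw [← fC4_cube_sub_fC6_sq, F.c4_base, F.c6_base]
    exact_mod_cast hrel
  -- an odd multiplier clearing the odd denominators of the base point
  obtain ⟨y₁, hy₁, hint₁⟩ := ((IsFractionRing.isAlgebraic_iff ℤ ℚ Qb).mpr
    (Algebra.IsAlgebraic.isAlgebraic F.r₀)).exists_integral_multiple
  obtain ⟨y₂, hy₂, hint₂⟩ := ((IsFractionRing.isAlgebraic_iff ℤ ℚ Qb).mpr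
    (Algebra.IsAlgebraic.isAlgebraic F.s₀)).exists_integral_multiple
  obtain ⟨i, No, hNo, hy⟩ := Nat.exists_eq_two_pow_mul_odd
    (Int.natAbs_ne_zero.mpr (mul_ne_zero hy₁ hy₂))
  obtain ⟨N, hN⟩ : ∃ N : ℤ, N = (No : ℤ) := ⟨_, rfl⟩
  have hNodd : ¬ (2 : ℤ) ∣ N := by
    rw [hN, show (2 : ℤ) = ((2 : ℕ) : ℤ) by rfl, Int.natCast_dvd_natCast]
    exact fun h => (Nat.not_even_iff_odd.mpr hNo) (even_iff_two_dvd.mpr h)
  have hN0 : N ≠ 0 := fun h => hNodd (h ▸ dvd_zero _)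
  have hNmem : ∀ {p : ℕ} {B : ValuationSubring Qb}, B.LiesOverPrime p → p.Prime → p ≠ 2 →
      (N : Qb) * F.r₀ ∈ B ∧ (N : Qb) * F.s₀ ∈ B := by
    intro p B hB hp hp2
    have hsign : ∃ e : ℤ, y₁ * y₂ = e * (2 ^ i * N) ∧ e ^ 2 = 1 := by
      have hyz : ((y₁ * y₂).natAbs : ℤ) = 2 ^ i * N := by rw [hy, hN]; push_cast; rfl
      rcases Int.natAbs_eq (y₁ * y₂) with h | h <;> rw [hyz] at h
      · exact ⟨1, by rw [h, one_mul], by norm_num⟩
      · exact ⟨-1, by rw [h, neg_one_mul], by norm_num⟩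
    obtain ⟨e, he, he2⟩ := hsign
    have h2i : ((2 : Qb) ^ i)⁻¹ ∈ B := by
      have h : (((2 : ℚ) ^ i)⁻¹ : ℚ).den = 2 ^ i := by
        rw [← inv_pow, Rat.den_pow]; norm_num
      have := (Arith.ratCast_mem_iff hB hp ((2 : ℚ) ^ i)⁻¹).mpr (by
        rw [h]
        intro hd
        exact hp2 ((Nat.prime_dvd_prime_iff_eq hp Nat.prime_two).mp (hp.dvd_of_dvd_pow hd)))
      simpa using this
    have hmul : ∀ {z : Qb}, ((y₁ * y₂ : ℤ) : Qb) * z ∈ B → (N : Qb) * z ∈ B := by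
      intro z hz
      have : (N : Qb) * z = ((2 : Qb) ^ i)⁻¹ * ((e : Qb) * (((y₁ * y₂ : ℤ) : Qb) * z)) := by
        have he2' : (e : Qb) ^ 2 = 1 := by exact_mod_cast he2
        rw [he]; push_cast
        field_simp
        linear_combination -z * he2'
      rw [this]
      exact mul_mem h2i (mul_mem (intCast_mem B e) hz)
    have i1 := Arith.mem_of_isIntegral B hint₁
    have i2 := Arith.mem_of_isIntegral B hint₂
    rw [zsmul_eq_mul] at i1 i2
    refine ⟨hmul ?_, hmul ?_⟩ <;> push_cast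
    · rw [mul_comm (y₁ : Qb), mul_assoc]; exact mul_mem (intCast_mem B y₂) i1
    · rw [mul_assoc]; exact mul_mem (intCast_mem B y₁) i2
  -- the parameters
  obtain ⟨Pb, hPb⟩ : ∃ Pb : Finset ℕ, Pb = (15 * W.Δ.natAbs).primeFactors.erase 2 := ⟨_, rfl⟩
  have hPbp : ∀ p ∈ Pb, p.Prime ∧ p ≠ 2 := fun p hp => by
    rw [hPb, Finset.mem_erase] at hp
    exact ⟨Nat.prime_of_mem_primeFactors hp.2, hp.1⟩
  obtain ⟨m, hm⟩ : ∃ m : ℤ, m = (∏ p ∈ Pb, (p : ℤ)) ^ 3 := ⟨_, rfl⟩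
  have hmodd : ¬ (2 : ℤ) ∣ m := fun h => by
    rw [hm] at h
    obtain ⟨p, hp, hp2⟩ := (Int.prime_two.dvd_finsetProd_iff _).mp (Int.prime_two.dvd_of_dvd_pow h)
    have : 2 ∣ p := by exact_mod_cast hp2
    exact (hPbp p hp).2 ((Nat.prime_dvd_prime_iff_eq Nat.prime_two (hPbp p hp).1).mp this).symm
  have hmdvd : ∀ p : ℕ, p.Prime → p ≠ 2 → (p : ℤ) ∣ 30 * W.Δ → (p : ℤ) ^ 3 ∣ m := by
    intro p hp hp2 hd
    have hd' : p ∣ 2 * (15 * W.Δ.natAbs) := by
      have := Int.natCast_dvd.mp hd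
      rw [Int.natAbs_mul] at this
      rw [← mul_assoc]
      simpa using this
    have hd15 := (hp.dvd_mul.mp hd').resolve_left
      fun h => hp2 ((Nat.prime_dvd_prime_iff_eq hp Nat.prime_two).mp h)
    rw [hm]
    refine pow_dvd_pow_of_dvd (Finset.dvd_prod_of_mem (fun q : ℕ => (q : ℤ)) ?_) 3
    rw [hPb]
    exact Finset.mem_erase.mpr ⟨hp2, Nat.mem_primeFactors.mpr
      ⟨hp, hd15, mul_ne_zero (by norm_num) (Int.natAbs_ne_zero.mpr hΔ)⟩⟩
  obtain ⟨b, hb⟩ : ∃ b : ℤ, b = N ^ 661 * m := ⟨_, rfl⟩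
  have hbodd : ¬ (2 : ℤ) ∣ b := fun h => by
    rw [hb] at h
    rcases Int.prime_two.dvd_mul.mp h with h | h
    · exact hNodd (Int.prime_two.dvd_of_dvd_pow h)
    · exact hmodd h
  have hb0 : b ≠ 0 := fun h => hbodd (h ▸ dvd_zero _)
  obtain ⟨a, hab, ha1, hal⟩ : ∃ a : ℤ, (16 : ℤ) ∣ a - b * a₀ - 8 ∧ b ∣ a - 1 ∧ a ≠ b * F.α := by
    obtain ⟨k, l, hkl⟩ : IsCoprime b (16 : ℤ) := by
      rw [show (16 : ℤ) = 2 ^ 4 by norm_num]
      exact ((Int.prime_two.coprime_iff_not_dvd).mpr hbodd).symm.pow_right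
    have h1 : (16 : ℤ) ∣ 1 + b * (k * (b * a₀ + 7)) - b * a₀ - 8 :=
      ⟨-l * (b * a₀ + 7), by linear_combination (b * a₀ + 7) * hkl⟩
    by_cases hc : 1 + b * (k * (b * a₀ + 7)) = b * F.α
    · refine ⟨1 + b * (k * (b * a₀ + 7)) + 16 * b, ?_, ⟨k * (b * a₀ + 7) + 16, by ring⟩, by omega⟩
      rw [show 1 + b * (k * (b * a₀ + 7)) + 16 * b - b * a₀ - 8 =
        1 + b * (k * (b * a₀ + 7)) - b * a₀ - 8 + 16 * b by ring]
      exact dvd_add h1 (dvd_mul_right _ _)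
    · exact ⟨_, h1, ⟨k * (b * a₀ + 7), by ring⟩, hc⟩
  obtain ⟨r', s', er, es, hu4, hv6, ν, hν, hvD⟩ := ha₀ a b hbodd hab
  obtain ⟨X, hX⟩ : ∃ X : Qb, X = (a : Qb) * F.r₀ - (b : Qb) * fDs F.r₀ F.s₀ := ⟨_, rfl⟩
  obtain ⟨Y, hY⟩ : ∃ Y : Qb, Y = (a : Qb) * F.s₀ + (b : Qb) * fDr F.r₀ F.s₀ := ⟨_, rfl⟩
  -- the cusp point and the point on the family have the same invariants
  have : NeZero (5 : Qb) := ⟨by norm_num⟩
  obtain ⟨z, hz⟩ : ∃ z : Qb, IsPrimitiveRoot z 5 := by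
    obtain ⟨z, hz⟩ := IsAlgClosed.exists_root (Polynomial.cyclotomic 5 Qb)
      (Polynomial.degree_cyclotomic_pos 5 _ (by norm_num)).ne'
    exact ⟨z, Polynomial.isRoot_cyclotomic_iff.mp hz⟩
  have q4 : fC4 (r : Qb) (s : Qb) = (W.c₄ : Qb) := by
    rw [← coe_fC4, k4, coe_intCast]
  have q6 : fC6 (r : Qb) (s : Qb) = (W.c₆ : Qb) := by
    rw [← coe_fC6, k6, coe_intCast]
  obtain ⟨g₁, g₂, g₃, g₄, hg, hgr, hgs⟩ := exists_isSym hz
    (q4.trans F.c4_base.symm) (q6.trans F.c6_base.symm)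
    (by rw [F.c4_base]; exact Int.cast_ne_zero.mpr hc4)
    (by rw [F.c6_base]; exact Int.cast_ne_zero.mpr hc6) F.fD_base
  have eX : (4 : Qb) * (r' : Qb) = g₁ * X + g₂ * Y := by
    have h := congrArg A.subtype er
    rw [map_mul, map_ofNat, map_sub, map_mul, map_mul, map_intCast, map_intCast, map_fDs] at h
    have k := hg.k1_eq F.r₀ F.s₀
    rw [← hgr, ← hgs] at k
    rw [hX, hY]
    simp only [ValuationSubring.coe_subtype] at h
    linear_combination h + (b : Qb) * k + (a : Qb) * hgr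
  have eY : (4 : Qb) * (s' : Qb) = g₃ * X + g₄ * Y := by
    have h := congrArg A.subtype es
    rw [map_mul, map_ofNat, map_add, map_mul, map_mul, map_intCast, map_intCast, map_fDr] at h
    have k := hg.k2_eq F.r₀ F.s₀
    rw [← hgr, ← hgs] at k
    rw [hX, hY]
    simp only [ValuationSubring.coe_subtype] at h
    linear_combination h + (b : Qb) * k + (a : Qb) * hgs
  have v4 : fC4 X Y = 4 ^ 20 * fC4 (r' : Qb) (s' : Qb) := by
    rw [← fC4_smul, eX, eY, hg.c4_eq]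
  have v6 : fC6 X Y = 4 ^ 30 * fC6 (r' : Qb) (s' : Qb) := by
    rw [← fC6_smul, eX, eY, hg.c6_eq]
  have vD : fD X Y ^ 5 = 4 ^ 60 * fD (r' : Qb) (s' : Qb) ^ 5 := by
    apply mul_left_cancel₀ (show (1728 : Qb) ≠ 0 by norm_num)
    rw [← fC4_cube_sub_fC6_sq, v4, v6, ← mul_assoc, mul_comm (1728 : Qb), mul_assoc,
      ← fC4_cube_sub_fC6_sq]
    ring
  -- rationality
  have hfix : ∀ σ : Qb ≃ₐ[ℚ] Qb, σ (fC4 X Y) = fC4 X Y ∧ σ (fC6 X Y) = fC6 X Y := by
    intro σ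
    obtain ⟨c₁, c₂, c₃, c₄', hS, hr, hs, -, -⟩ := F.sym σ
    have m1 : σ (fDs F.r₀ F.s₀) = fDs (σ F.r₀) (σ F.s₀) := map_fDs (σ : Qb →+* Qb) _ _
    have m2 : σ (fDr F.r₀ F.s₀) = fDr (σ F.r₀) (σ F.s₀) := map_fDr (σ : Qb →+* Qb) _ _
    have k1 := hS.k1_eq F.r₀ F.s₀
    have k2 := hS.k2_eq F.r₀ F.s₀
    rw [← hr, ← hs] at k1 k2
    have sX : σ X = c₁ * X + c₂ * Y := by
      rw [hX, hY, map_sub, map_mul, map_mul, map_intCast, map_intCast, m1]
      linear_combination (b : Qb) * k1 + (a : Qb) * hr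
    have sY : σ Y = c₃ * X + c₄' * Y := by
      rw [hX, hY, map_add, map_mul, map_mul, map_intCast, map_intCast, m2]
      linear_combination (b : Qb) * k2 + (a : Qb) * hs
    have e4 : σ (fC4 X Y) = fC4 (σ X) (σ Y) := map_fC4 (σ : Qb →+* Qb) _ _
    have e6 : σ (fC6 X Y) = fC6 (σ X) (σ Y) := map_fC6 (σ : Qb →+* Qb) _ _
    rw [e4, e6, sX, sY, hS.c4_eq, hS.c6_eq]
    exact ⟨rfl, rfl⟩
  obtain ⟨t4, ht4⟩ := exists_rat_of_fixed fun σ => (hfix σ).1
  obtain ⟨t6, ht6⟩ := exists_rat_of_fixed fun σ => (hfix σ).2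
  obtain ⟨tD, htD⟩ : ∃ tD : ℚ, tD = (t4 ^ 3 - t6 ^ 2) / 1728 := ⟨_, rfl⟩
  have htD' : (tD : Qb) = fD X Y ^ 5 := by
    apply mul_left_cancel₀ (show (1728 : Qb) ≠ 0 by norm_num)
    rw [← fC4_cube_sub_fC6_sq, ← ht4, ← ht6, htD]
    push_cast
    ring
  -- congruences at the odd primes of `b`
  have hcongr : ∀ {p : ℕ} {B : ValuationSubring Qb}, B.LiesOverPrime p → p.Prime → p ≠ 2 →
      (∃ β ∈ B, fC4 X Y - (a : Qb) ^ 20 * W.c₄ = (N : Qb) * (m : Qb) * β) ∧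
      (∃ β ∈ B, fC6 X Y - (a : Qb) ^ 30 * W.c₆ = (N : Qb) * (m : Qb) * β) ∧
      (∃ β ∈ B, fD X Y ^ 5 - (a : Qb) ^ 60 * W.Δ = (N : Qb) * (m : Qb) * β) := by
    intro p B hB hp hp2
    obtain ⟨hr, hs⟩ := hNmem hB hp hp2
    refine ⟨?_, ?_, ?_⟩
    · rw [hX, hY, ← F.c4_base]
      exact scaled_congr (f := fC4) (fB := fC4) (n := 20) (by norm_num) coe_fC4
        (fun l x y => fC4_smul l x y) dvd_fC4_add_sub hN0 hr hs a b hb
    · rw [hX, hY, ← F.c6_base]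
      exact scaled_congr (f := fC6) (fB := fC6) (n := 30) (by norm_num) coe_fC6
        (fun l x y => fC6_smul l x y) dvd_fC6_add_sub hN0 hr hs a b hb
    · rw [hX, hY, ← hFD5]
      exact scaled_congr (f := fun x y => fD x y ^ 5) (fB := fun x y => fD x y ^ 5) (n := 60)
        (by norm_num) (fun x y => by push_cast [coe_fD]; rfl) fD_pow_smul dvd_fD_pow_add_sub hN0
        hr hs a b hb
  -- integrality
  have hmem : ∀ p : ℕ, p.Prime → ∃ B : ValuationSubring Qb, B.LiesOverPrime p ∧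
      fC4 X Y / 4 ^ 20 ∈ B ∧ fC6 X Y / 4 ^ 30 ∈ B := by
    intro p hp
    by_cases hp2 : p = 2
    · subst hp2
      refine ⟨A, hA, ?_, ?_⟩
      · rw [v4, mul_div_cancel_left₀ _ (by norm_num), ← coe_fC4]; exact Subtype.prop _
      · rw [v6, mul_div_cancel_left₀ _ (by norm_num), ← coe_fC6]; exact Subtype.prop _
    obtain ⟨B, hB⟩ := Arith.exists_liesOverPrime hp
    have h4i : ∀ n : ℕ, ((4 : Qb) ^ n)⁻¹ ∈ B := fun n => by
      have h : (((4 : ℚ) ^ n)⁻¹ : ℚ).den = 4 ^ n := by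
        rw [← inv_pow, Rat.den_pow]; norm_num
      have := (Arith.ratCast_mem_iff hB hp ((4 : ℚ) ^ n)⁻¹).mpr (by
        rw [h, show 4 = 2 ^ 2 by norm_num, ← pow_mul]
        intro hd
        exact hp2 ((Nat.prime_dvd_prime_iff_eq hp Nat.prime_two).mp (hp.dvd_of_dvd_pow hd)))
      simpa using this
    obtain ⟨⟨β, hβ, e4⟩, ⟨γ, hγ, e6⟩, -⟩ := hcongr hB hp hp2
    refine ⟨B, hB, ?_, ?_⟩ <;> rw [div_eq_mul_inv] <;> refine mul_mem ?_ (h4i _)
    · rw [sub_eq_iff_eq_add.mp e4]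
      exact add_mem (mul_mem (mul_mem (intCast_mem B N) (intCast_mem B m)) hβ)
        (mul_mem (pow_mem (intCast_mem B a) _) (intCast_mem B _))
    · rw [sub_eq_iff_eq_add.mp e6]
      exact add_mem (mul_mem (mul_mem (intCast_mem B N) (intCast_mem B m)) hγ)
        (mul_mem (pow_mem (intCast_mem B a) _) (intCast_mem B _))
  obtain ⟨Z4, hZ4⟩ := exists_int_of_forall_mem (q := t4 / 4 ^ 20) fun p hp => by
    obtain ⟨B, hB, h, -⟩ := hmem p hp
    exact ⟨B, hB, by push_cast; rw [ht4]; exact h⟩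
  obtain ⟨Z6, hZ6⟩ := exists_int_of_forall_mem (q := t6 / 4 ^ 30) fun p hp => by
    obtain ⟨B, hB, -, h⟩ := hmem p hp
    exact ⟨B, hB, by push_cast; rw [ht6]; exact h⟩
  have eZ4 : (4 : Qb) ^ 20 * (Z4 : Qb) = fC4 X Y := by
    rw [← ht4, ← Rat.cast_intCast, hZ4]; push_cast; field_simp
  have eZ6 : (4 : Qb) ^ 30 * (Z6 : Qb) = fC6 X Y := by
    rw [← ht6, ← Rat.cast_intCast, hZ6]; push_cast; field_simp
  have a4 : (Z4 : Qb) = fC4 (r' : Qb) (s' : Qb) :=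
    mul_left_cancel₀ (pow_ne_zero 20 (by norm_num : (4 : Qb) ≠ 0)) (eZ4.trans v4)
  have a6 : (Z6 : Qb) = fC6 (r' : Qb) (s' : Qb) :=
    mul_left_cancel₀ (pow_ne_zero 30 (by norm_num : (4 : Qb) ≠ 0)) (eZ6.trans v6)
  have A4 : (Z4 : A) = fC4 r' s' := Subtype.val_injective (by rw [coe_intCast, coe_fC4]; exact a4)
  have A6 : (Z6 : A) = fC6 r' s' := Subtype.val_injective (by rw [coe_intCast, coe_fC6]; exact a6)
  have h4' : ¬ (2 : ℤ) ∣ Z4 := fun h => by
    have h0 := (intCast_residue_eq_zero_iff hA Nat.prime_two Z4).mpr h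
    rw [← map_intCast (residue A), A4] at h0
    exact (residue_ne_zero_iff_isUnit _).mpr hu4 h0
  have h6' : Z6 % 4 = 3 := by
    obtain ⟨β, hβ⟩ := hv6
    rw [← A6] at hβ
    have := int_dvd_of_mem hA Nat.prime_two (k := 2) (z := Z6 - W.c₆) (β := (β : Qb)) β.2 (by
      have h := congrArg A.subtype hβ
      rw [map_sub, map_mul, map_ofNat, map_intCast, map_intCast] at h
      push_cast
      rw [h]
      norm_num)
    push_cast at this
    omega
  -- the discriminant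
  obtain ⟨D', hD'⟩ : ∃ D' : ℤ, (D' : ℚ) = ((Z4 : ℚ) ^ 3 - (Z6 : ℚ) ^ 2) / 1728 := by
    refine exists_int_of_forall_mem fun p hp => ?_
    have e : ((((Z4 : ℚ) ^ 3 - (Z6 : ℚ) ^ 2) / 1728 : ℚ) : Qb) =
        fD (r' : Qb) (s' : Qb) ^ 5 := by
      push_cast
      rw [a4, a6, fC4_cube_sub_fC6_sq]
      field_simp
    rw [e]
    by_cases hp2 : p = 2
    · subst hp2
      exact ⟨A, hA, by rw [← coe_fD]; exact pow_mem (Subtype.prop _) 5⟩
    obtain ⟨B, hB⟩ := Arith.exists_liesOverPrime hp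
    obtain ⟨-, -, β, hβ, eD⟩ := hcongr hB hp hp2
    refine ⟨B, hB, ?_⟩
    have h4i : ((4 : Qb) ^ 60)⁻¹ ∈ B := by
      have h : (((4 : ℚ) ^ 60)⁻¹ : ℚ).den = 4 ^ 60 := by norm_num
      have := (Arith.ratCast_mem_iff hB hp ((4 : ℚ) ^ 60)⁻¹).mpr (by
        rw [h, show 4 = 2 ^ 2 by norm_num, ← pow_mul]
        intro hd
        exact hp2 ((Nat.prime_dvd_prime_iff_eq hp Nat.prime_two).mp (hp.dvd_of_dvd_pow hd)))
      simpa using this
    have : fD (r' : Qb) (s' : Qb) ^ 5 = ((4 : Qb) ^ 60)⁻¹ * fD X Y ^ 5 := by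
      rw [vD, inv_mul_cancel_left₀ (by norm_num)]
    rw [this, sub_eq_iff_eq_add.mp eD]
    exact mul_mem h4i (add_mem (mul_mem (mul_mem (intCast_mem B N) (intCast_mem B m)) hβ)
      (mul_mem (pow_mem (intCast_mem B a) _) (intCast_mem B _)))
  have hrel' : Z4 ^ 3 - Z6 ^ 2 = 1728 * D' := by
    have : ((Z4 : ℚ) ^ 3 - (Z6 : ℚ) ^ 2) = 1728 * (D' : ℚ) := by rw [hD']; ring
    exact_mod_cast this
  have aD : (D' : Qb) = fD (r' : Qb) (s' : Qb) ^ 5 := by
    apply mul_left_cancel₀ (show (1728 : Qb) ≠ 0 by norm_num)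
    rw [← fC4_cube_sub_fC6_sq, ← a4, ← a6]
    exact_mod_cast hrel'.symm
  have hD32 : (D' : Qb) = ((32 * W.Δ : ℤ) : Qb) * (ν : Qb) := by
    rw [aD]
    have h := congrArg A.subtype hvD
    rw [map_pow, map_fD, map_mul, map_mul, map_ofNat, map_intCast] at h
    push_cast
    exact h
  have hD0 : D' ≠ 0 := fun h => by
    rw [h, Int.cast_zero, eq_comm, mul_eq_zero, Int.cast_eq_zero] at hD32
    rcases hD32 with h' | h'
    · exact mul_ne_zero (by norm_num) hΔ h'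
    · exact hν.ne_zero (Subtype.val_injective h')
  have hval : padicValInt 2 D' = padicValInt 2 W.Δ + 5 := by
    rw [padicValInt_two_eq hA hD0 (mul_ne_zero (by norm_num) hΔ) hν hD32,
      padicValInt.mul (by norm_num) hΔ, show padicValInt 2 32 = 5 by
        rw [show (32 : ℤ) = ((2 ^ 5 : ℕ) : ℤ) by norm_num, padicValInt.of_nat,
          padicValNat.prime_pow], add_comm]
  -- congruences in `ℤ`
  have ha_mod : ∀ n : ℕ, m ∣ a ^ n - 1 := fun n =>
    ((Dvd.intro_left _ hb.symm : m ∣ b).trans ha1).trans (by simpa using sub_dvd_pow_sub_pow a 1 n)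
  have hint : ∀ p : ℕ, p.Prime → p ≠ 2 → ∀ k : ℕ, (p : ℤ) ^ k ∣ N * m →
      (p : ℤ) ^ k ∣ 4 ^ 20 * Z4 - a ^ 20 * W.c₄ ∧ (p : ℤ) ^ k ∣ 4 ^ 30 * Z6 - a ^ 30 * W.c₆ ∧
      (p : ℤ) ^ k ∣ 4 ^ 60 * D' - a ^ 60 * W.Δ := by
    intro p hp hp2 k ⟨c, hc⟩
    obtain ⟨B, hB⟩ := Arith.exists_liesOverPrime hp
    have hNm : (N : Qb) * (m : Qb) = (p : Qb) ^ k * (c : Qb) := by exact_mod_cast hc
    have conv : ∀ {z : ℤ} {β : Qb}, β ∈ B → (z : Qb) = (N : Qb) * (m : Qb) * β →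
        (p : ℤ) ^ k ∣ z := fun hβ h =>
      int_dvd_of_mem hB hp (mul_mem (intCast_mem B c) hβ) (by rw [h, hNm, mul_assoc])
    obtain ⟨⟨β, hβ, e4⟩, ⟨γ, hγ, e6⟩, ⟨δ, hδ, eD⟩⟩ := hcongr hB hp hp2
    refine ⟨conv hβ ?_, conv hγ ?_, conv hδ ?_⟩ <;>
      rw [Int.cast_sub, Int.cast_mul, Int.cast_mul, Int.cast_pow, Int.cast_pow, Int.cast_ofNat]
    · rw [eZ4]; exact e4
    · rw [eZ6]; exact e6
    · rw [aD, ← vD]; exact eD
  have m3 : HasModelAt 3 27 Z4 Z6 := by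
    have h27 : ((3 : ℕ) : ℤ) ^ 3 ∣ m := hmdvd 3 Nat.prime_three (by norm_num)
      (dvd_mul_of_dvd_left (by norm_num) _)
    obtain ⟨e4, e6, -⟩ := hint 3 Nat.prime_three (by norm_num) 3 (h27.mul_left N)
    have i4 := h27.trans (ha_mod 20)
    have i6 := h27.trans (ha_mod 30)
    obtain ⟨l, l', hl⟩ : IsCoprime ((4 : ℤ) ^ 5) (27 : ℤ) := by norm_num
    have hl' : (l : ZMod 27) * 4 ^ 5 = 1 := by
      have := congrArg (Int.cast (R := ZMod 27)) hl
      push_cast at this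
      rwa [show (27 : ZMod 27) = 0 from rfl, mul_zero, add_zero] at this
    have z4 : (4 : ZMod 27) ^ 20 * (Z4 : ZMod 27) = (W.c₄ : ZMod 27) := by
      have h1 := (ZMod.intCast_zmod_eq_zero_iff_dvd _ 27).mpr e4
      have h2 := (ZMod.intCast_zmod_eq_zero_iff_dvd _ 27).mpr i4
      push_cast at h1 h2
      linear_combination h1 + (W.c₄ : ZMod 27) * h2
    have z6 : (4 : ZMod 27) ^ 30 * (Z6 : ZMod 27) = (W.c₆ : ZMod 27) := by
      have h1 := (ZMod.intCast_zmod_eq_zero_iff_dvd _ 27).mpr e6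
      have h2 := (ZMod.intCast_zmod_eq_zero_iff_dvd _ 27).mpr i6
      push_cast at h1 h2
      linear_combination h1 + (W.c₆ : ZMod 27) * h2
    refine hasModelAt_three_of_modEq (scaleCurve W l)
      ((ZMod.intCast_eq_intCast_iff _ _ 27).mp ?_) ((ZMod.intCast_eq_intCast_iff _ _ 27).mp ?_)
    · rw [c₄_scaleCurve]
      push_cast
      rw [← z4, ← mul_assoc, show (4 : ZMod 27) ^ 20 = (4 ^ 5) ^ 4 by rw [← pow_mul],
        ← mul_pow, hl', one_pow, one_mul]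
    · rw [c₆_scaleCurve]
      push_cast
      rw [← z6, ← mul_assoc, show (4 : ZMod 27) ^ 30 = (4 ^ 5) ^ 6 by rw [← pow_mul],
        ← mul_pow, hl', one_pow, one_mul]
  obtain ⟨W', e4, e6, eΔ⟩ := exists_model hrel' (hasModelAt_two_of_unit hrel' h4' h6') m3
  refine ⟨W', eΔ ▸ hD0, ?_, ?_, eΔ ▸ hval, ?_⟩
  · intro p hp hpΔ hpc
    rw [eΔ] at hpΔ
    rw [e4] at hpc
    by_cases hp2 : p = 2
    · subst hp2; exact h4' (by exact_mod_cast hpc)
    have hpz := Nat.prime_iff_prime_int.mp hp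
    by_cases hpb : (p : ℤ) ∣ b
    · have hpm : (p : ℤ) ∣ N * m := by
        rw [hb] at hpb
        rcases hpz.dvd_mul.mp hpb with h | h
        · exact (hpz.dvd_of_dvd_pow h).mul_right _
        · exact h.mul_left _
      obtain ⟨d4, -, dD⟩ := hint p hp hp2 1 (by rwa [pow_one])
      rw [pow_one] at d4 dD
      have hpa : ¬ (p : ℤ) ∣ a := fun h => hp.not_dvd_one (by
        exact_mod_cast (dvd_sub_right h).mp (hpb.trans ha1))
      have q1 : (p : ℤ) ∣ W.c₄ := (hpz.dvd_mul.mp ((dvd_sub_right (hpc.mul_left _)).mp d4)).resolve_left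
        fun h => hpa (hpz.dvd_of_dvd_pow h)
      have q2 : (p : ℤ) ∣ W.Δ := (hpz.dvd_mul.mp ((dvd_sub_right (hpΔ.mul_left _)).mp dD)).resolve_left
        fun h => hpa (hpz.dvd_of_dvd_pow h)
      exact hW p hp q2 q1
    · have h30 : ¬ (p : ℤ) ∣ 30 * W.Δ := fun h => hpb (by
        rw [hb]
        exact ((dvd_pow_self _ (by norm_num : (3 : ℕ) ≠ 0)).trans (hmdvd p hp hp2 h)).mul_left _)
      obtain ⟨B, hB⟩ := Arith.exists_liesOverPrime hp
      obtain ⟨hr0, hs0'⟩ := F.base_mem hp h30 hB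
      obtain ⟨R0, hR0⟩ : ∃ R0 : B, (R0 : Qb) = F.r₀ := ⟨⟨_, hr0⟩, rfl⟩
      obtain ⟨S0, hS0⟩ : ∃ S0 : B, (S0 : Qb) = F.s₀ := ⟨⟨_, hs0'⟩, rfl⟩
      obtain ⟨XB, hXB⟩ : ∃ x : B, x = (a : B) * R0 - (b : B) * fDs R0 S0 := ⟨_, rfl⟩
      obtain ⟨YB, hYB⟩ : ∃ x : B, x = (a : B) * S0 + (b : B) * fDr R0 S0 := ⟨_, rfl⟩
      have cX : B.subtype XB = X := by
        rw [hXB, map_sub, map_mul, map_mul, map_intCast, map_intCast, map_fDs, hX]
        simp only [ValuationSubring.coe_subtype, hR0, hS0]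
      have cY : B.subtype YB = Y := by
        rw [hYB, map_add, map_mul, map_mul, map_intCast, map_intCast, map_fDr, hY]
        simp only [ValuationSubring.coe_subtype, hR0, hS0]
      have E4 : fC4 XB YB = (4 : B) ^ 20 * (Z4 : B) := by
        apply Subtype.val_injective
        show B.subtype (fC4 XB YB) = B.subtype ((4 : B) ^ 20 * (Z4 : B))
        rw [map_fC4, cX, cY, map_mul, map_pow, map_ofNat, map_intCast]
        exact eZ4.symm
      have ED : fD XB YB ^ 5 = (4 : B) ^ 60 * (D' : B) := by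
        apply Subtype.val_injective
        show B.subtype (fD XB YB ^ 5) = B.subtype ((4 : B) ^ 60 * (D' : B))
        rw [map_pow, map_fD, cX, cY, map_mul, map_pow, map_ofNat, map_intCast, aD, vD]
      have E0 : fD R0 S0 ^ 5 = ((W.Δ : ℤ) : B) := by
        apply Subtype.val_injective
        show B.subtype (fD R0 S0 ^ 5) = B.subtype ((W.Δ : ℤ) : B)
        rw [map_pow, map_fD, map_intCast]
        simp only [ValuationSubring.coe_subtype, hR0, hS0]
        exact hFD5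
      obtain ⟨φ, hφ⟩ : ∃ φ : B →+* ResidueField B, φ = residue B := ⟨_, rfl⟩
      have zero_of : ∀ z : ℤ, (p : ℤ) ∣ z → φ (z : B) = 0 := fun z hz => by
        rw [map_intCast]; exact (intCast_residue_eq_zero_iff hB hp z).mpr hz
      have z4 : fC4 (φ XB) (φ YB) = 0 := by rw [← map_fC4, E4, map_mul, zero_of _ hpc, mul_zero]
      have zD : fD (φ XB) (φ YB) = 0 := by
        have : fD (φ XB) (φ YB) ^ 5 = 0 := by
          rw [← map_fD, ← map_pow, ED, map_mul, zero_of _ hpΔ, mul_zero]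
        simpa using this
      have hne : ∀ z : ℤ, ¬ (p : ℤ) ∣ z → (z : ResidueField B) ≠ 0 := fun z hz h =>
        hz ((intCast_residue_eq_zero_iff hB hp z).mp h)
      have hp5 : (3125 : ResidueField B) ≠ 0 := by
        have := hne (5 ^ 5) fun h => h30 ((hpz.dvd_of_dvd_pow h).trans
          (dvd_mul_of_dvd_left (by norm_num) _))
        norm_num at this
        exact this
      have b1 := bezout_fst (φ XB) (φ YB)
      have b2 := bezout_snd (φ XB) (φ YB)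
      rw [z4, zD] at b1 b2
      simp only [mul_zero, add_zero, mul_eq_zero, hp5, false_or,
        pow_eq_zero_iff (by norm_num : (31 : ℕ) ≠ 0)] at b1 b2
      have hdet : R0 * YB - S0 * XB = (b : B) * (12 * fD R0 S0) := by
        rw [hXB, hYB, ← euler_fD]; ring
      have hd := congrArg φ hdet
      rw [map_sub, map_mul, map_mul, b1, b2, mul_zero, mul_zero, sub_self, map_mul, map_mul,
        map_intCast, map_ofNat] at hd
      have hp12 : (12 : ResidueField B) ≠ 0 := by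
        have := hne 12 fun h => by
          rcases hpz.dvd_mul.mp (show (p : ℤ) ∣ 2 ^ 2 * 3 by norm_num; exact h) with h | h
          · exact h30 ((hpz.dvd_of_dvd_pow h).trans (dvd_mul_of_dvd_left (by norm_num) _))
          · exact h30 (h.trans (dvd_mul_of_dvd_left (by norm_num) _))
        exact_mod_cast this
      have hz : φ (fD R0 S0) = 0 := by
        have hb' := hne b hpb
        simpa [hb', hp12] using hd.symm
      have hΔ0 : ((W.Δ : ℤ) : ResidueField B) = 0 := by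
        rw [← map_intCast φ, ← E0, map_pow, hz, zero_pow (by norm_num)]
      exact h30 (((intCast_residue_eq_zero_iff hB hp _).mp hΔ0).mul_left 30)
  · rw [eΔ]
    have h1 : ((2 : ℕ) : ℤ) ^ 1 ∣ D' := (padicValInt_dvd_iff 1 D').mpr (Or.inr (by omega))
    simpa using h1
  · obtain ⟨lam, hlam⟩ : ∃ lam : ℤ, lam = a - b * F.α := ⟨_, rfl⟩
    have hlam0 : (lam : ℚ) ≠ 0 := by
      rw [hlam]; exact_mod_cast sub_ne_zero.mpr hal
    have hlamQ : (lam : Qb) ≠ 0 := by exact_mod_cast Int.cast_ne_zero.mp hlam0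
    have ecast : ∀ n : ℕ, ((((4 : ℚ) / lam) ^ n : ℚ) : Qb) = ((4 : Qb) / lam) ^ n := fun n => by
      push_cast; rfl
    have eF : ∀ {P : Qb → Qb → Qb} {n : ℕ}, (∀ l x y : Qb, P (l * x) (l * y) = l ^ n * P x y) →
        P X Y = (lam : Qb) ^ n * P (F.r₀ + (((b : ℚ) / lam : ℚ) : Qb) * F.u)
          (F.s₀ + (((b : ℚ) / lam : ℚ) : Qb) * F.v) := by
      intro P n hP
      rw [← hP]
      congr 1 <;> push_cast
      · rw [hX, F.hu]; field_simp; rw [hlam]; push_cast; ring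
      · rw [hY, F.hv]; field_simp; rw [hlam]; push_cast; ring
    refine sameTrace_of_point F (eΔ ▸ hD0) ((b : ℚ) / lam)
      (Units.mk0 (((4 : ℚ) / lam) ^ 5) (pow_ne_zero _ (div_ne_zero (by norm_num) hlam0))) ?_ ?_
    · rw [Units.val_mk0, ← pow_mul, e4, Rat.cast_mul, ecast, Rat.cast_intCast, div_pow,
        div_mul_eq_mul_div, eq_div_iff (pow_ne_zero _ hlamQ), eZ4,
        eF (fun l x y => fC4_smul l x y), mul_comm]
    · rw [Units.val_mk0, ← pow_mul, e6, Rat.cast_mul, ecast, Rat.cast_intCast, div_pow,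
        div_mul_eq_mul_div, eq_div_iff (pow_ne_zero _ hlamQ), eZ6,
        eF (fun l x y => fC6_smul l x y), mul_comm]

end Fermat.Agent.Two.Switch
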