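import Fermat.Agent.Two.Inputs
import Fermat.Agent.Two.Switch.Step
import Fermat.Agent.RT.Frey.Modular
import Fermat.Agent.RT.MazurP.Models

/-!
# The switch input

The exponent at `2` is raised in steps of five until it is divisible by three, and then a member
of the integral family with irreducible 3-torsion is taken.
-/

set_option autoImplicit false

noncomputable section

namespace Fermat.Agent.Two.Switch

open WeierstrassCurve
open Fermat.Agent.Switch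

/-- Iterated steps. -/
theorem exists_steps (W : WeierstrassCurve ℤ) (hΔ : W.Δ ≠ 0) (hW : W.IsSemistableModel)
    (h2 : (2 : ℤ) ∣ W.Δ) (j : ℕ) :
    ∃ W' : WeierstrassCurve ℤ, W'.Δ ≠ 0 ∧ W'.IsSemistableModel ∧ (2 : ℤ) ∣ W'.Δ ∧
      padicValInt 2 W'.Δ = padicValInt 2 W.Δ + 5 * j ∧ SameTrace W W' := by
  induction j with
  | zero => exact ⟨W, hΔ, hW, h2, by simp, SameTrace.refl W⟩
  | succ j ih =>
    obtain ⟨W₁, h₁, hs₁, h2₁, hv₁, ht₁⟩ := ih
    obtain ⟨W₂, h₂, hs₂, h2₂, hv₂, ht₂⟩ := exists_step W₁ h₁ hs₁ h2₁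
    exact ⟨W₂, h₂, hs₂, h2₂, by rw [hv₂, hv₁]; ring, ht₁.trans ht₂⟩

/-- The members of the integral family keep the exponent at `2`. -/
theorem padicValInt_two_curve {W : WeierstrassCurve ℤ} (F : FamilyData W) (hΔ : W.Δ ≠ 0) (n : ℤ) :
    padicValInt 2 (F.curve n).Δ = padicValInt 2 W.Δ := by
  obtain ⟨M, hM⟩ : ∃ M : ℕ, M = (30 * W.Δ).natAbs := ⟨_, rfl⟩
  have hd : ∀ x : ℤ, 30 * W.Δ ∣ x → (M : ℤ) ∣ x := fun x hx => by
    rw [hM, Int.natAbs_dvd]; exact hx
  have e4 : ((F.d4 n : ℤ) : ZMod M) = 0 :=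
    (ZMod.intCast_zmod_eq_zero_iff_dvd _ _).mpr (hd _ (F.d4_dvd n))
  have e6 : ((F.d6 n : ℤ) : ZMod M) = 0 :=
    (ZMod.intCast_zmod_eq_zero_iff_dvd _ _).mpr (hd _ (F.d6_dvd n))
  have hmap : (F.curve n).map (Int.castRingHom (ZMod M)) = W.map (Int.castRingHom (ZMod M)) := by
    ext <;> simp [FamilyData.curve, e4, e6]
  have h := congrArg WeierstrassCurve.Δ hmap
  simp only [map_Δ, eq_intCast, ZMod.intCast_eq_intCast_iff_dvd_sub, hM, Int.natAbs_dvd] at h
  obtain ⟨k, hk⟩ := h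
  have e : (F.curve n).Δ = W.Δ * (1 - 30 * k) := by linarith
  rw [e, padicValInt.mul hΔ (by omega), padicValInt.eq_zero_of_not_dvd (z := 1 - 30 * k) (by omega), add_zero]

/-- **The switch input.** -/
theorem switchInput : SwitchInput := by
  intro P
  have hΔ : P.freyCurveInt.Δ ≠ 0 := EC.Reduction.Frey.Δ_ne_zero P
  have hW := RT.Frey.freyCurveInt_isSemistableModel P
  have h2 : (2 : ℤ) ∣ P.freyCurveInt.Δ := by
    exact_mod_cast RT.MazurP.dvd_freyCurveInt_Δ P Nat.prime_two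
      (dvd_mul_of_dvd_left (dvd_mul_of_dvd_right
        ((ZMod.intCast_zmod_eq_zero_iff_dvd _ 2).mp P.hb2) _) _)
  obtain ⟨W₁, h₁, hs₁, h2₁, hv₁, ht₁⟩ :=
    exists_steps P.freyCurveInt hΔ hW h2 (padicValInt 2 P.freyCurveInt.Δ % 3)
  obtain ⟨F⟩ := exists_familyData h₁ hs₁
  obtain ⟨n, hn, hirr⟩ := F.exists_irreducible hs₁ (c₄_ne_zero_of_semistable h₁ hs₁)
  have hv := padicValInt_two_curve F h₁ n
  refine ⟨F.curve n, hn, F.isSemistableModel hs₁ n, hirr, ?_, ?_, fun ℓ hℓ hg hg' h5 =>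
    (ht₁.trans (sameTrace_curve F hn)).five_dvd_apOfModel_sub hℓ hg hg' h5⟩
  · have h1 := ((padicValInt_dvd_iff (p := 2) 1 W₁.Δ).mp (by simpa using h2₁)).resolve_left h₁
    have := (padicValInt_dvd_iff (p := 2) 1 (F.curve n).Δ).mpr (Or.inr (by omega))
    simpa using this
  · rw [hv, hv₁]
    omega

end Fermat.Agent.Two.Switch
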