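import Fermat.Agent.Switch.Main
import Fermat.Agent.RT.MazurP.Models

/-!
# Equal mod 5 Galois traces along the icosahedral family

A curve whose invariants are, up to a fourth and sixth power, the values of the forms at a
rational point of the family has the same mod 5 trace function as the base curve.
-/

set_option autoImplicit false

noncomputable section

namespace Fermat.Agent.Two.Switch

open WeierstrassCurve WeierstrassCurve.Affine
open Fermat.Agent.Switch
open scoped WeierstrassCurve.Affine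

local notation "Qb" => AlgebraicClosure ℚ

/-- The mod 5 trace functions agree. -/
def SameTrace (W W' : WeierstrassCurve ℤ) : Prop :=
  ∀ σ : Qb ≃ₐ[ℚ] Qb,
    Point.galoisTrace (K := Qb) ℚ (W.map (Int.castRingHom ℚ)).toAffine 5 σ =
      Point.galoisTrace (K := Qb) ℚ (W'.map (Int.castRingHom ℚ)).toAffine 5 σ

theorem SameTrace.refl (W : WeierstrassCurve ℤ) : SameTrace W W := fun _ => rfl

theorem SameTrace.trans {W W' W'' : WeierstrassCurve ℤ} (h : SameTrace W W')
    (h' : SameTrace W' W'') : SameTrace W W'' := fun σ => (h σ).trans (h' σ)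

theorem SameTrace.five_dvd_apOfModel_sub {W W' : WeierstrassCurve ℤ} (h : SameTrace W W') {ℓ : ℕ}
    (hℓ : ℓ.Prime) (hg : W.IsGoodPrimeFor ℓ) (hg' : W'.IsGoodPrimeFor ℓ) (h5 : ℓ ≠ 5) :
    (5 : ℤ) ∣ W'.apOfModel ℓ - W.apOfModel ℓ := by
  have : Fact (Nat.Prime 5) := ⟨by norm_num⟩
  obtain ⟨A, hA⟩ := Arith.exists_liesOverPrime hℓ
  obtain ⟨σ, hσ⟩ := Arith.exists_isFrobeniusAt hA hℓ
  have e := EC.FrobTrace.galoisTrace_frobenius (p := 5) W hℓ hg h5 hA hσ
  have e' := EC.FrobTrace.galoisTrace_frobenius (p := 5) W' hℓ hg' h5 hA hσ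
  exact (ZMod.intCast_zmod_eq_zero_iff_dvd _ 5).mp (by
    push_cast
    rw [sub_eq_zero]
    exact e'.symm.trans ((h σ).symm.trans e))

/-- Curves with proportional invariants differ by a change of coordinates. -/
theorem exists_variableChange {K : Type*} [Field K] [CharZero K] {E E' : WeierstrassCurve K}
    (u : Kˣ) (h4 : E.c₄ = (u : K) ^ 4 * E'.c₄) (h6 : E.c₆ = (u : K) ^ 6 * E'.c₆) :
    ∃ C : VariableChange K, C • E = E' := by
  set s := ((u : K) * E'.a₁ - E.a₁) / 2 with hs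
  set r := ((u : K) ^ 2 * E'.a₂ - E.a₂ + s * E.a₁ + s ^ 2) / 3 with hr
  set t := ((u : K) ^ 3 * E'.a₃ - E.a₃ - r * E.a₁) / 2 with ht
  have hu : (u : K) ≠ 0 := u.ne_zero
  refine ⟨⟨u, r, s, t⟩, curve_ext ?_ ?_ ?_ ?_ ?_⟩
  · rw [variableChange_a₁, Units.val_inv_eq_inv_val, hs]; field_simp; ring
  · rw [variableChange_a₂, Units.val_inv_eq_inv_val, hr]; field_simp; ring
  · rw [variableChange_a₃, Units.val_inv_eq_inv_val, ht]; field_simp; ring
  · rw [variableChange_c₄, h4, Units.val_inv_eq_inv_val]; field_simp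
  · rw [variableChange_c₆, h6, Units.val_inv_eq_inv_val]; field_simp

/-- The trace function is invariant under a change of coordinates. -/
theorem galoisTrace_variableChange {p : ℕ} [Fact p.Prime] {E E' : WeierstrassCurve ℚ} [E.IsElliptic]
    {C : VariableChange ℚ} (hC : C • E = E') (σ : Qb ≃ₐ[ℚ] Qb) :
    Point.galoisTrace (K := Qb) ℚ E'.toAffine p σ = Point.galoisTrace (K := Qb) ℚ E.toAffine p σ := by
  obtain ⟨Φ, hΦ⟩ := RT.MazurP.exists_pointEquiv E E' hC
  let e : Submodule.torsionBy ℤ (E'⁄Qb).toAffine.Point (p : ℕ) ≃+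
      Submodule.torsionBy ℤ (E⁄Qb).toAffine.Point (p : ℕ) :=
    { toFun := fun x => ⟨Φ x.1, by
        rw [Submodule.mem_torsionBy_iff, ← map_zsmul, (Submodule.mem_torsionBy_iff _ _).mp x.2,
          _root_.map_zero]⟩
      invFun := fun x => ⟨Φ.symm x.1, by
        rw [Submodule.mem_torsionBy_iff, ← map_zsmul, (Submodule.mem_torsionBy_iff _ _).mp x.2,
          _root_.map_zero]⟩
      left_inv := fun x => Subtype.ext (Φ.symm_apply_apply x.1)
      right_inv := fun x => Subtype.ext (Φ.apply_symm_apply x.1)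
      map_add' := fun x y => Subtype.ext (map_add Φ x.1 y.1) }
  let φl := { e with map_smul' := fun c x => ZMod.map_smul e.toAddMonoidHom c x : _ ≃ₗ[ZMod p] _ }
  rw [Point.galoisTrace_def, Point.galoisTrace_def,
    ← LinearMap.trace_conj' (Point.galoisRepModuleEnd (K := Qb) ℚ E'.toAffine p σ) φl]
  congr 1
  refine LinearMap.ext fun y => ?_
  rw [LinearEquiv.conj_apply_apply]
  refine Subtype.ext ?_
  show Φ (σ • Φ.symm y.1) = σ • y.1
  rw [hΦ, AddEquiv.apply_symm_apply]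

/-- A rational point of the family gives a curve with the same trace function. -/
theorem sameTrace_of_point {W W' : WeierstrassCurve ℤ} (F : FamilyData W) (hΔ' : W'.Δ ≠ 0)
    (t : ℚ) (l : ℚˣ)
    (h4 : fC4 (F.r₀ + (t : Qb) * F.u) (F.s₀ + (t : Qb) * F.v) =
      (((l : ℚ) ^ 4 * W'.c₄ : ℚ) : Qb))
    (h6 : fC6 (F.r₀ + (t : Qb) * F.u) (F.s₀ + (t : Qb) * F.v) =
      (((l : ℚ) ^ 6 * W'.c₆ : ℚ) : Qb)) : SameTrace W W' := by
  have : Fact (Nat.Prime 5) := ⟨by norm_num⟩
  set k₄ : ℚ := (l : ℚ) ^ 4 * W'.c₄ with hk₄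
  set k₆ : ℚ := (l : ℚ) ^ 6 * W'.c₆ with hk₆
  let V : WeierstrassCurve ℚ := ⟨W.a₁, W.a₂, W.a₃, (W.a₄ : ℚ) - (k₄ - W.c₄) / 48,
    (W.a₆ : ℚ) - (W.b₂ : ℚ) * (k₄ - W.c₄) / 576 - (k₆ - W.c₆) / 864⟩
  have v4 : V.c₄ = k₄ := by
    simp only [V, WeierstrassCurve.c₄, WeierstrassCurve.b₂, WeierstrassCurve.b₄]
    push_cast
    ring
  have v6 : V.c₆ = k₆ := by
    simp only [V, WeierstrassCurve.c₄, WeierstrassCurve.c₆, WeierstrassCurve.b₂,
      WeierstrassCurve.b₄, WeierstrassCurve.b₆]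
    push_cast
    ring
  have hrel : k₄ ^ 3 - k₆ ^ 2 = (l : ℚ) ^ 12 * (1728 * (W'.Δ : ℚ)) := by
    have e : (1728 * W'.Δ : ℚ) = (W'.c₄ : ℚ) ^ 3 - (W'.c₆ : ℚ) ^ 2 := by
      exact_mod_cast W'.c_relation
    rw [e, hk₄, hk₆]; ring
  have hne : k₄ ^ 3 - k₆ ^ 2 ≠ 0 := by
    rw [hrel]
    exact mul_ne_zero (pow_ne_zero _ l.ne_zero)
      (mul_ne_zero (by norm_num) (Int.cast_ne_zero.mpr hΔ'))
  have hV : V.IsElliptic := ⟨isUnit_iff_ne_zero.mpr fun h0 => hne (by
    have := V.c_relation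
    rw [h0, mul_zero, v4, v6] at this
    exact this.symm)⟩
  have hfib : Fib (V⁄Qb) (F.r₀ + (t : Qb) * F.u) (F.s₀ + (t : Qb) * F.v) := by
    refine ⟨?_, ?_, fun h0 => hne ?_⟩
    · show (V.map (algebraMap ℚ Qb)).c₄ = _
      rw [map_c₄, v4, h4]; rfl
    · show (V.map (algebraMap ℚ Qb)).c₆ = _
      rw [map_c₆, v6, h6]; rfl
    · have e := fC4_cube_sub_fC6_sq (F.r₀ + (t : Qb) * F.u) (F.s₀ + (t : Qb) * F.v)
      rw [h4, h6, h0, zero_pow (by norm_num : (5 : ℕ) ≠ 0), mul_zero] at e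
      exact_mod_cast e
  intro σ
  have key := F.galoisTrace_eq (W.map (Int.castRingHom ℚ)) V 0 t
    (fun X hX => by
      rcases hX with rfl | hX
      · exact ⟨by simp, by simp, by simp⟩
      · rw [Set.mem_singleton_iff] at hX
        subst hX
        exact ⟨by simp [V], by simp [V], by simp [V]⟩)
    (fib_base F) hfib σ
  obtain ⟨C, hC⟩ := exists_variableChange (E := V) (E' := W'.map (Int.castRingHom ℚ)) l
    (by rw [v4, hk₄, map_c₄]; rfl) (by rw [v6, hk₆, map_c₆]; rfl)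
  rw [galoisTrace_variableChange hC σ]
  exact key

/-- The members of the integral family have the same trace function. -/
theorem sameTrace_curve {W : WeierstrassCurve ℤ} (F : FamilyData W) {n : ℤ}
    (hn : (F.curve n).Δ ≠ 0) : SameTrace W (F.curve n) :=
  sameTrace_of_point F hn ((F.M * n : ℤ) : ℚ) 1
    (by
      rw [Units.val_one, one_pow, one_mul, Rat.cast_intCast, Rat.cast_intCast]
      exact (F.c4_fib n).symm)
    (by
      rw [Units.val_one, one_pow, one_mul, Rat.cast_intCast, Rat.cast_intCast]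
      exact (F.c6_fib n).symm)

end Fermat.Agent.Two.Switch
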